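import Fermat.Agent.Carayol.Glue.Local
import Mathlib.FieldTheory.Perfect

/-!
# Compatible roots on the special fibre give a root

If the root is not in the field, two labels occur; the indicator of one label is an approximate
idempotent on both charts, congruent on the overlap, hence constant by connectedness.
-/

set_option autoImplicit false
set_option linter.style.haveILetI false
set_option linter.unusedSectionVars false

noncomputable section

namespace FA.Carayol

open Polynomial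

variable {K E : Type} [Field K] [Field E] [Algebra (RatFunc K) E]
  {A : ValuationSubring K} {L : Subfield K} {ϖ : baseO A L}

/-- An approximate idempotent modulo the radical lifts. -/
theorem exists_idem_mod_pi (hC : ConstHyp A L ϖ) {z : RatFunc K} (hz : IsCoord K z) {e : E}
    (he : IntC A z e)
    (h : ∀ W, IsVertical A L ϖ W → W.valuation (e * e - e) < 1) :
    ∃ e' b, IntC A z e' ∧ IntC A z b ∧ e' * e' - e' = cst (ϖ : K) * b ∧
      ∀ W, IsVertical A L ϖ W → W.valuation (e' - e) < 1 := by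
  set u := e * e - e
  have hu : IntC A z u := (he.mul he).sub he
  have hn : ∀ n : ℕ, IntC A z (n : E) := fun n => by
    rw [← map_natCast (chartHom (E := E) A z)]; exact intC_hom _
  obtain ⟨k, b, hb, hk⟩ := exists_pow_eq_pi_mul hC hz hu h
  have hiter : ∀ j : ℕ, ∃ e' r r', IntC A z e' ∧ IntC A z r ∧ IntC A z r' ∧
      e' - e = u * r ∧ e' * e' - e' = u ^ (2 ^ j) * r' := by
    intro j
    induction j with
    | zero => exact ⟨e, 0, 1, he, intC_zero, intC_one, by ring, by rw [pow_zero, pow_one, mul_one]⟩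
    | succ j ih =>
      obtain ⟨e', r, r', he', hr, hr', h1, h2⟩ := ih
      refine ⟨(3 : ℕ) * (e' * e') - (2 : ℕ) * (e' * e' * e'),
        r + u ^ (2 ^ j - 1) * r' * (1 - (2 : ℕ) * e'),
        r' * r' * ((4 : ℕ) * (e' * e' - e') - (3 : ℕ)),
        ((hn 3).mul (he'.mul he')).sub ((hn 2).mul ((he'.mul he').mul he')),
        hr.add (((hu.pow _).mul hr').mul (intC_one.sub ((hn 2).mul he'))),
        (hr'.mul hr').mul (((hn 4).mul ((he'.mul he').sub he')).sub (hn 3)), ?_, ?_⟩
      · have hp : u ^ (2 ^ j) = u * u ^ (2 ^ j - 1) := by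
          rw [← pow_succ', Nat.sub_add_cancel Nat.one_le_two_pow]
        rw [hp] at h2
        linear_combination h1 + (1 - 2 * e') * h2
      · have hp : u ^ (2 ^ (j + 1)) = u ^ (2 ^ j) * u ^ (2 ^ j) := by
          rw [← pow_add, pow_succ, mul_two]
        rw [hp]
        linear_combination ((e' * e' - e') + u ^ (2 ^ j) * r') * (4 * (e' * e' - e') - 3) * h2
  obtain ⟨e', r, r', he', hr, hr', h1, h2⟩ := hiter k
  refine ⟨e', b * (u ^ (2 ^ k - k) * r'), he', hb.mul ((hu.pow _).mul hr'), ?_, fun W hW => ?_⟩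
  · rw [h2, ← mul_assoc, ← hk, ← mul_assoc, ← pow_add, Nat.add_sub_cancel' k.lt_two_pow_self.le]
  · rw [h1, map_mul]
    exact lt_of_le_of_lt (mul_le_of_le_one_right'
      ((W.valuation_le_one_iff _).2 (hW.mem_of_intC hC hz hr))) (h W hW)

/-- A vertical valuation exists. -/
theorem exists_isVertical [FiniteDimensional (RatFunc K) E] (hC : ConstHyp A L ϖ) :
    ∃ W : ValuationSubring E, IsVertical A L ϖ W := by
  have hz : IsCoord K (RatFunc.X : RatFunc K) := Or.inl rfl
  obtain ⟨P, hP, hPc⟩ := Ideal.exists_ideal_over_prime_of_isIntegral_of_isDomain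
    (S := chartB (E := E) A RatFunc.X) (fibreIdeal A) (fun Q hQ => by
      rw [RingHom.mem_ker] at hQ
      have h0 : chartHom (E := E) A RatFunc.X Q = 0 := congrArg Subtype.val hQ
      rw [hz.evC_injective ((algebraMap (RatFunc K) E).injective
        (h0.trans (map_zero _).symm) |>.trans (map_zero _).symm)]
      exact zero_mem _)
  obtain ⟨W, hW, -⟩ := exists_vertical hC hz (P := P) ⟨hP, hPc⟩
  exact ⟨W, hW⟩

/-- A root outside the field gives a second branch with another label. -/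
theorem exists_second_branch [CharZero E] (hC : ConstHyp A L ϖ) {n : ℕ}
    (hn : A.valuation (n : K) = 1) {ζ : K} (hζ : IsPrimitiveRoot ζ n) {F : Subfield E}
    (hL : ∀ a ∈ L, cst a ∈ F) (hζL : ζ ∈ L)
    (hX : algebraMap (RatFunc K) E RatFunc.X ∈ F) {h f : E} (hfF : f ∈ F) (hf0 : f ≠ 0)
    (hh : h ^ n = f) (hnot : h ∉ F) {g : ValuationSubring E → E}
    (hg : ∀ W, IsVertical A L ϖ W → g W ∈ F ∧ g W ≠ 0)
    (hinv : ∀ W W', IsVertical A L ϖ W → IsVertical A L ϖ W' →
      (∀ a ∈ F, a ∈ W ↔ a ∈ W') → g W = g W')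
    {W : ValuationSubring E} (hW : IsVertical A L ϖ W) {l : ℕ} (hl : HasLabel ζ h g W l) :
    ∃ W', IsVertical A L ϖ W' ∧ ¬ HasLabel ζ h g W' l := by
  classical
  have hn0 := n_ne_zero_of_unit hn
  have hprim : IsPrimitiveRoot (cst (E := E) ζ) n := hζ.map_of_injective cst_injective
  have hh0 : h ≠ 0 := fun h0 => hf0 (by rw [← hh, h0, zero_pow hn0])
  have hint : IsIntegral F h := ⟨X ^ n - C (⟨f, hfF⟩ : F), monic_X_pow_sub_C _ hn0, by
    rw [eval₂_sub, eval₂_X_pow, eval₂_C]
    show h ^ n - f = 0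
    rw [hh, sub_self]⟩
  set p := minpoly F h
  set q : E[X] := X ^ n - C f
  have hdvd : p.map (algebraMap F E) ∣ q := by
    have : p ∣ X ^ n - C (⟨f, hfF⟩ : F) := minpoly.dvd _ _ (by
      rw [map_sub, map_pow, aeval_X, aeval_C]
      show h ^ n - f = 0
      rw [hh, sub_self])
    have h2 := Polynomial.map_dvd (algebraMap F E) this
    rwa [Polynomial.map_sub, Polynomial.map_pow, map_X, map_C] at h2
  have hq0 : q ≠ 0 := X_pow_sub_C_ne_zero (Nat.pos_of_ne_zero hn0) _
  have hsplit : (p.map (algebraMap F E)).Splits :=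
    (X_pow_sub_C_splits_of_isPrimitiveRoot hprim hh).of_dvd hq0 hdvd
  have hsep : (p.map (algebraMap F E)).Separable :=
    ((minpoly.irreducible hint).separable).map
  have hcard : 2 ≤ (p.map (algebraMap F E)).roots.card := by
    rw [← hsplit.natDegree_eq_card_roots, natDegree_map]
    refine (minpoly.two_le_natDegree_iff hint).2 fun ⟨a, ha⟩ => hnot ?_
    rw [← ha]
    exact a.2
  obtain ⟨r, hr, hrh⟩ : ∃ r ∈ (p.map (algebraMap F E)).roots, r ≠ h := by
    by_contra hc
    push Not at hc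
    have h1 : (p.map (algebraMap F E)).roots = Multiset.replicate _ h :=
      Multiset.eq_replicate_card.2 hc
    have h2 := nodup_roots hsep
    have h3 := Multiset.nodup_iff_count_le_one.1 h2 h
    rw [h1, Multiset.count_replicate_self] at h3
    omega
  obtain ⟨j, -, hj⟩ : ∃ j < n, cst (E := E) ζ ^ j = r / h := by
    haveI : NeZero n := ⟨hn0⟩
    refine hprim.eq_pow_of_pow_eq_one ?_
    have hrq : (q.eval r) = 0 := eval_eq_zero_of_dvd_of_eval_eq_zero hdvd (isRoot_of_mem_roots hr)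
    rw [eval_sub, eval_pow, eval_X, eval_C, sub_eq_zero] at hrq
    rw [div_pow, hrq, hh, div_self hf0]
  set σ : IntermediateField.adjoin F {h} →ₐ[F] E :=
    (IntermediateField.algHomAdjoinIntegralEquiv F hint).symm ⟨r, hr⟩
  have hσh : σ (IntermediateField.AdjoinSimple.gen F h) = r :=
    IntermediateField.algHomAdjoinIntegralEquiv_symm_apply_gen F hint ⟨r, hr⟩
  set W₂ := W.comap σ.toRingHom
  set emb : IntermediateField.adjoin F {h} →+* E := (IntermediateField.adjoin F {h}).val.toRingHom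
  obtain ⟨W', hW'⟩ := (LocalSubring.map emb W₂.toLocalSubring).exists_le_valuationSubring
  have hmem : ∀ c, c ∈ W₂ → emb c ∈ W' := fun c hc => hW'.1 ⟨c, hc, rfl⟩
  have hsmall : ∀ c, W₂.valuation c < 1 → W'.valuation (emb c) < 1 := fun c hc => by
    have hcm : c ∈ W₂ := (W₂.valuation_le_one_iff _).1 hc.le
    obtain ⟨hle, hloc⟩ := hW'
    refine (W'.valuation_lt_one_iff ⟨emb c, hle ⟨c, hcm, rfl⟩⟩).1
      ((IsLocalRing.mem_maximalIdeal _).2 fun hu => ?_)
    have h2 : IsUnit (⟨emb c, ⟨c, hcm, rfl⟩⟩ : (LocalSubring.map emb W₂.toLocalSubring).toSubring) :=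
      hloc.map_nonunit _ hu
    obtain ⟨⟨_, d, hd, rfl⟩, hd'⟩ := h2.exists_right_inv
    have h3 : c * d = 1 := emb.injective (by
      rw [map_mul, map_one]
      exact congrArg Subtype.val hd')
    have h4 : IsUnit (⟨c, hcm⟩ : W₂) := isUnit_iff_exists_inv.2 ⟨⟨d, hd⟩, Subtype.ext h3⟩
    exact hc.ne ((W₂.valuation_eq_one_iff _).1 h4)
  have hW₂ : ∀ c, W₂.valuation c < 1 ↔ W.valuation (σ c) < 1 := fun c => by
    rw [← ValuationSubring.mem_nonunits_iff, ValuationSubring.mem_nonunits_iff_or,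
      ← ValuationSubring.mem_nonunits_iff, ValuationSubring.mem_nonunits_iff_or,
      ValuationSubring.mem_comap]
    simp
  have hiff : ∀ c, W'.valuation (emb c) < 1 ↔ W.valuation (σ c) < 1 := fun c => by
    rw [← hW₂]
    refine ⟨fun hc => ?_, hsmall c⟩
    rw [← ValuationSubring.mem_nonunits_iff, ValuationSubring.mem_nonunits_iff_or] at hc ⊢
    rcases hc with h0 | h1
    · exact Or.inl ((map_eq_zero_iff _ emb.injective).1 h0)
    · exact Or.inr fun h2 => h1 (map_inv₀ emb c ▸ hmem _ h2)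
  have hmem' : ∀ c, emb c ∈ W' ↔ σ c ∈ W := fun c => by
    rcases eq_or_ne c 0 with rfl | hc
    · simp
    have h1 := hiff c⁻¹
    rw [← ValuationSubring.mem_nonunits_iff, ValuationSubring.mem_nonunits_iff_or,
      ← ValuationSubring.mem_nonunits_iff, ValuationSubring.mem_nonunits_iff_or, map_inv₀,
      map_inv₀, inv_inv, inv_inv, inv_eq_zero, inv_eq_zero, map_eq_zero_iff _ emb.injective,
      map_eq_zero_iff σ σ.toRingHom.injective] at h1
    simp only [hc, false_or] at h1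
    exact not_iff_not.1 h1
  let toE' : F →+* IntermediateField.adjoin F {h} := algebraMap _ _
  have hFW : ∀ a ∈ F, a ∈ W' ↔ a ∈ W := fun a ha => by
    have := hmem' (toE' ⟨a, ha⟩)
    rwa [AlgHom.commutes] at this
  have hFv : ∀ a ∈ F, W'.valuation a < 1 ↔ W.valuation a < 1 := fun a ha => by
    have := hiff (toE' ⟨a, ha⟩)
    rwa [AlgHom.commutes] at this
  have hW'v : IsVertical A L ϖ W' := by
    refine ⟨(hFv _ (hL _ ϖ.2.2)).2 hW.1, fun P hP => ?_⟩
    have hPF : baseHom A L RatFunc.X P ∈ F := baseHom_mem hL hX P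
    have h1 := hW.2 P hP
    exact le_antisymm ((W'.valuation_le_one_iff _).2 ((hFW _ hPF).2
      ((W.valuation_le_one_iff _).1 h1.le))) (not_lt.1 fun hlt => ((hFv _ hPF).1 hlt).ne h1)
  refine ⟨W', hW'v, fun hl' => hrh ?_⟩
  have hgeq : g W' = g W := hinv W' W hW'v hW fun a ha => hFW a ha
  have hgF := (hg W hW).1
  have hzF : cst (E := E) ζ ^ l ∈ F := pow_mem (hL _ hζL) l
  have h1 := (hiff (IntermediateField.AdjoinSimple.gen F h / toE' ⟨g W, hgF⟩ -
    toE' ⟨_, hzF⟩)).1 (by
    rw [map_sub, map_div₀]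
    show W'.valuation (h / g W - cst ζ ^ l) < 1
    rw [← hgeq]
    exact hl')
  rw [map_sub, map_div₀, hσh, AlgHom.commutes, AlgHom.commutes] at h1
  change W.valuation (r / g W - cst ζ ^ l) < 1 at h1
  have hrh' : r = cst ζ ^ j * h := by rw [hj, div_mul_cancel₀ _ hh0]
  have hv : ∀ i, W.valuation (cst (E := E) ζ ^ i) = 1 := fun i =>
    (pow_eq_one_iff.1 (by rw [← map_pow, cst_zeta_pow hζ, map_one])).resolve_right hn0
  have h2 : W.valuation (cst ζ ^ l * (cst (E := E) ζ ^ j - 1)) < 1 := by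
    rw [show cst ζ ^ l * (cst (E := E) ζ ^ j - 1) =
      (r / g W - cst ζ ^ l) - cst ζ ^ j * (h / g W - cst ζ ^ l) by rw [hrh']; ring]
    refine lt_of_le_of_lt (W.valuation.map_sub _ _) (max_lt h1 ?_)
    rw [map_mul, hv, one_mul]
    exact hl
  rw [map_mul, hv, one_mul] at h2
  rw [hrh', eq_one_of_small (cst_zeta_pow hζ j) (hW.natCast_eq_one hC hn) h2, one_mul]

/-- **Gluing.** -/
theorem glueRoots : GlueRoots := by
  intro K E _ _ _ _ _ _ A L ϖ hC n hn hζ' F s hF _hs h f hfF hf0 hh g hg hinv hagX hagY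
  obtain ⟨ζ, hζL, hζ⟩ := hζ'
  haveI : CharZero (RatFunc K) := charZero_of_injective_algebraMap RatFunc.C_injective
  haveI : CharZero E := charZero_of_injective_algebraMap (algebraMap (RatFunc K) E).injective
  have hn0 := n_ne_zero_of_unit hn
  by_contra hnot
  have hXF : algebraMap (RatFunc K) E RatFunc.X ∈ F := by
    rw [hF]; exact Subfield.subset_closure (Or.inl (Or.inr rfl))
  have hLF : ∀ a ∈ L, cst a ∈ F := fun a ha => by
    rw [hF]; exact Subfield.subset_closure (Or.inl (Or.inl ⟨a, ha, rfl⟩))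
  have hzF : ∀ {z : RatFunc K}, IsCoord K z → algebraMap (RatFunc K) E z ∈ F := by
    rintro z (rfl | rfl)
    · exact hXF
    · rw [map_inv₀]; exact inv_mem hXF
  have hag : ∀ {z : RatFunc K}, IsCoord K z → RootsAgree A L ϖ F n f g z := by
    rintro z (rfl | rfl)
    exacts [hagX, hagY]
  obtain ⟨W₀, hW₀⟩ := exists_isVertical (E := E) hC
  obtain ⟨l, hl⟩ := exists_hasLabel hn0 hζ hh (hg W₀ hW₀).2.2
  set p : ValuationSubring E → Prop := fun W => HasLabel ζ h g W l
  have hp : ∀ {z : RatFunc K} (hz : IsCoord K z) (M : Ideal (chartB (E := E) A z)), M.IsMaximal →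
      ∀ (W W' : ValuationSubring E) (hW : IsVertical A L ϖ W) (hW' : IsVertical A L ϖ W'),
      vertCentre hW hC hz ≤ M → vertCentre hW' hC hz ≤ M → (p W ↔ p W') := by
    intro z hz M hM W W' hW hW' hWM hW'M
    haveI := hM
    have hg0 : ∀ W, IsVertical A L ϖ W → g W ≠ 0 := fun W hW => (hg W hW).2.1
    constructor
    · intro hpW
      obtain ⟨l', hl'⟩ := exists_hasLabel hn0 hζ hh (hg W' hW').2.2
      have e := label_eq_of_le hC hn hζL hζ hh hz (hag hz) hLF (hzF hz) hg0 hW hW' hWM hW'M hpW hl'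
      show W'.valuation (h / g W' - cst ζ ^ l) < 1
      rw [e]; exact hl'
    · intro hpW'
      obtain ⟨l', hl'⟩ := exists_hasLabel hn0 hζ hh (hg W hW).2.2
      have e := label_eq_of_le hC hn hζL hζ hh hz (hag hz) hLF (hzF hz) hg0 hW' hW hW'M hWM hpW' hl'
      show W.valuation (h / g W - cst ζ ^ l) < 1
      rw [e]; exact hl'
  have hchart : ∀ {z : RatFunc K}, IsCoord K z → ∃ e b, IntC A z e ∧ IntC A z b ∧
      e * e - e = cst (ϖ : K) * b ∧
      ∀ W, IsVertical A L ϖ W → W.valuation (e - branchInd p W) < 1 := by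
    intro z hz
    obtain ⟨e, he, hep⟩ := exists_indicator (E := E) hC hz p (hp hz)
    obtain ⟨e', b, he', hb, heq, hclose⟩ := exists_idem_mod_pi hC hz he fun W hW => by
      have h1 := hep W hW
      have hsplit : e * e - e =
          (e - branchInd p W) * (e + branchInd p W - 1) := by
        unfold branchInd
        split_ifs <;> ring
      rw [hsplit, map_mul]
      refine lt_of_le_of_lt (mul_le_of_le_one_right' ((W.valuation_le_one_iff _).2
        (sub_mem (add_mem (hW.mem_of_intC hC hz he) ?_) (one_mem _)))) h1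
      unfold branchInd
      split_ifs
      exacts [one_mem _, zero_mem _]
    refine ⟨e', b, he', hb, heq, fun W hW => ?_⟩
    have h2 := W.valuation.map_add_lt (hclose W hW) (hep W hW)
    rwa [sub_add_sub_cancel] at h2
  obtain ⟨e₀, b₀, he₀, hb₀, h₀, hc₀⟩ := hchart (z := RatFunc.X) (Or.inl rfl)
  obtain ⟨e₁, b₁, he₁, hb₁, h₁, hc₁⟩ := hchart (z := RatFunc.X⁻¹) (Or.inr rfl)
  set δ : A := baseInclHom A L ϖ
  have hd : ∀ W, IsVertical A L ϖ W → W.valuation (e₀ - e₁) < 1 := fun W hW => by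
    rw [← sub_sub_sub_cancel_right e₀ e₁ (branchInd p W)]
    exact lt_of_le_of_lt (W.valuation.map_sub _ _) (max_lt (hc₀ W hW) (hc₁ W hW))
  set x := algebraMap (RatFunc K) E RatFunc.X
  have hx0 : x ≠ 0 := (map_ne_zero_iff _ (algebraMap (RatFunc K) E).injective).2 RatFunc.X_ne_zero
  obtain ⟨N, hN⟩ := ov_of_intC_inv he₁
  have hu : IntC A RatFunc.X (x ^ N * (e₀ - e₁)) := by
    rw [mul_sub]; exact ((intC_coord_pow N).mul he₀).sub hN
  obtain ⟨k, c, hc, hk⟩ := exists_pow_eq_pi_mul hC (Or.inl rfl) hu fun W hW => by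
    rw [map_mul, map_pow, hW.coord_eq_one, one_pow, one_mul]
    exact hd W hW
  have hov0 := ov_of_intC (A := A) he₀
  have hov1 := ov_of_intC_inv (A := A) he₁
  have hdo : Ov A (e₀ - e₁) := hov0.sub hov1
  have hpk : ∃ c', Ov A c' ∧ (e₀ - e₁) ^ k = cst (δ : K) * c' := by
    refine ⟨c / x ^ (N * k), ⟨N * k, by rwa [mul_div_cancel₀ _ (pow_ne_zero _ hx0)]⟩, ?_⟩
    rw [mul_pow, ← pow_mul] at hk
    rw [mul_div_assoc', eq_div_iff (pow_ne_zero _ hx0), mul_comm]
    exact hk
  have hcube : ∃ c', Ov A c' ∧ (e₀ - e₁) - (e₀ - e₁) ^ 3 = cst (δ : K) * c' := by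
    refine ⟨-((e₀ + 1) * b₀ - (e₁ + 1) * b₁ - (3 : ℕ) * (e₁ * b₀ - e₀ * b₁)),
      ((((hov0.add (ov_of_intC intC_one)).mul (ov_of_intC hb₀)).sub
        ((hov1.add (ov_of_intC intC_one)).mul (ov_of_intC_inv hb₁))).sub
        ((ov_natCast 3).mul ((hov1.mul (ov_of_intC hb₀)).sub (hov0.mul (ov_of_intC_inv hb₁))))).neg,
      ?_⟩
    show _ = cst (ϖ : K) * _
    push_cast
    linear_combination -(e₀ + 1) * h₀ + (e₁ + 1) * h₁ + 3 * (e₁ * h₀ - e₀ * h₁)
  have hov : ∃ c', Ov A c' ∧ e₀ - e₁ = cst (δ : K) * c' := by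
    have hstep : ∀ j : ℕ, ∃ c', Ov A c' ∧
        (e₀ - e₁) - (e₀ - e₁) ^ (2 * j + 1) = cst (δ : K) * c' := by
      intro j
      induction j with
      | zero => exact ⟨0, ov_of_intC intC_zero, by ring⟩
      | succ j ih =>
        obtain ⟨c', hc', he'⟩ := ih
        obtain ⟨c'', hc'', he''⟩ := hcube
        exact ⟨c' + (e₀ - e₁) ^ (2 * j) * c'', hc'.add ((hdo.pow _).mul hc''), by
          linear_combination he' + (e₀ - e₁) ^ (2 * j) * he''⟩
    obtain ⟨c', hc', he'⟩ := hstep k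
    obtain ⟨c'', hc'', he''⟩ := hpk
    refine ⟨c' + (e₀ - e₁) ^ (k + 1) * c'', hc'.add ((hdo.pow _).mul hc''), ?_⟩
    linear_combination he' + (e₀ - e₁) ^ (k + 1) * he''
  have harch : ∀ c : A, c ≠ 0 → ∃ k : ℕ, c ∣ δ ^ k := fun c hc => by
    obtain ⟨i, hi⟩ := hC.arch c hc
    have hc' : (c : K) ≠ 0 := fun h0 => hc (Subtype.ext h0)
    refine ⟨i, ⟨(ϖ : K) ^ i / c, ?_⟩, Subtype.ext ?_⟩
    · rw [← A.valuation_le_one_iff, map_div₀]
      exact div_le_one_of_le₀ hi zero_le
    · show (ϖ : K) ^ i = (c : K) * ((ϖ : K) ^ i / c)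
      rw [mul_div_cancel₀ _ hc']
  obtain ⟨a, P, b, hP, hb, hPab⟩ := connected (E := E) harch he₀ hb₀ h₀ he₁ hb₁ h₁ hov
  have hea : ∀ W, IsVertical A L ϖ W → W.valuation (branchInd p W - cst a) < 1 := fun W hW => by
    have h1 := congrArg W.valuation hPab
    rw [map_mul, map_mul, hW.chartHom_X_eq_one hC hP, one_mul] at h1
    have h2 : W.valuation (e₀ - cst a) < 1 := by
      rw [h1]
      exact lt_of_le_of_lt (mul_le_of_le_one_right'
        ((W.valuation_le_one_iff _).2 (hW.mem_of_intC hC (Or.inl rfl) hb))) hW.1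
    rw [← sub_sub_sub_cancel_left _ _ e₀]
    exact lt_of_le_of_lt (W.valuation.map_sub _ _) (max_lt h2 (hc₀ W hW))
  obtain ⟨W', hW', hno⟩ := exists_second_branch hC hn hζ hLF hζL hXF hfF hf0 hh hnot
    (fun W hW => ⟨(hg W hW).1, (hg W hW).2.1⟩) hinv hW₀ hl
  have h1 := hea W₀ hW₀
  have h2 := hea W' hW'
  rw [branchInd, if_pos (show p W₀ from hl), ← map_one (cst (K := K) (E := E)), ← map_sub,
    hW₀.cst_lt_one hC] at h1
  rw [branchInd, if_neg (show ¬ p W' from hno), zero_sub, Valuation.map_neg,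
    hW'.cst_lt_one hC] at h2
  have h3 := A.valuation.map_add_lt h1 h2
  rw [sub_add_cancel, map_one] at h3
  exact lt_irrefl _ h3

end FA.Carayol

end
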