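import Fermat.Agent.Carayol.Glue.Vertical

/-!
# Separating the branches with a given label

At every point of the special fibre of a chart the branches through it carry the same label, so
some element of the chart is one on the branches with a given label and zero on the others.
-/

set_option autoImplicit false
set_option linter.style.haveILetI false
set_option linter.unusedSectionVars false

noncomputable section

namespace FA.Carayol

open Polynomial

variable {K E : Type} [Field K] [Field E] [Algebra (RatFunc K) E]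
  {A : ValuationSubring K} {L : Subfield K} {ϖ : baseO A L}

/-- A unit root of unity other than one is not congruent to one. -/
theorem eq_one_of_small {W : ValuationSubring E} {n : ℕ} {η : E} (hη : η ^ n = 1)
    (hn : W.valuation (n : E) = 1) (h : W.valuation (η - 1) < 1) : η = 1 := by
  by_contra hne
  have hmem : η ∈ W := by
    have h1 : W.valuation η ≤ 1 := by
      rw [← sub_add_cancel η 1]
      exact W.valuation.map_add_le h.le (map_one _).le
    exact (W.valuation_le_one_iff _).1 h1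
  have hsum : ∑ i ∈ Finset.range n, η ^ i = 0 := by
    have := geom_sum_mul η n
    rw [hη, sub_self] at this
    exact (mul_eq_zero.1 this).resolve_right (sub_ne_zero.2 hne)
  have hn' : (n : E) = ∑ i ∈ Finset.range n, (1 - η ^ i) := by
    rw [Finset.sum_sub_distrib, hsum, sub_zero, Finset.sum_const, Finset.card_range, nsmul_one]
  refine hn.not_lt ?_
  rw [hn']
  refine Valuation.map_sum_lt _ one_ne_zero fun i _ => ?_
  obtain ⟨c, hc⟩ := sub_dvd_pow_sub_pow (⟨η, hmem⟩ : W) 1 i
  have hc' : η ^ i - 1 = (η - 1) * (c : E) := by simpa using congrArg Subtype.val hc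
  rw [← Valuation.map_neg, neg_sub, hc', map_mul]
  exact lt_of_le_of_lt (mul_le_of_le_one_right' ((W.valuation_le_one_iff _).2 c.2)) h

theorem cst_zeta_pow {n : ℕ} {ζ : K} (hζ : IsPrimitiveRoot ζ n) (l : ℕ) :
    (cst (E := E) ζ ^ l) ^ n = 1 := by
  rw [← pow_mul, mul_comm, pow_mul, ← map_pow, hζ.pow_eq_one, map_one, one_pow]

/-- The branch `W` carries the label `l`. -/
def HasLabel (ζ : K) (h : E) (g : ValuationSubring E → E) (W : ValuationSubring E) (l : ℕ) : Prop :=
  W.valuation (h / g W - cst ζ ^ l) < 1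

section label

variable {n : ℕ} {ζ : K} {W : ValuationSubring E} {h f : E} {g : ValuationSubring E → E}

theorem IsVertical.natCast_eq_one (hW : IsVertical A L ϖ W) (hC : ConstHyp A L ϖ)
    (hn : A.valuation (n : K) = 1) : W.valuation (n : E) = 1 := by
  rw [← map_natCast (cst (K := K) (E := E))]
  exact hW.cst_eq_one hC hn

theorem n_ne_zero_of_unit (hn : A.valuation (n : K) = 1) : n ≠ 0 := by
  rintro rfl
  simp at hn

theorem exists_hasLabel (hn0 : n ≠ 0) (hζ : IsPrimitiveRoot ζ n) (hh : h ^ n = f)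
    (hg : W.valuation (f / g W ^ n - 1) < 1) : ∃ l, HasLabel ζ h g W l := by
  have hprim : IsPrimitiveRoot (cst (E := E) ζ) n := hζ.map_of_injective cst_injective
  haveI : NeZero n := ⟨hn0⟩
  rw [← hh, ← div_pow] at hg
  have e := hprim.pow_sub_pow_eq_prod_sub_mul (h / g W) 1 (Nat.pos_of_ne_zero hn0)
  simp only [one_pow, mul_one] at e
  rw [e, map_prod] at hg
  by_contra hno
  push Not at hno
  refine hg.not_ge ?_
  refine Finset.one_le_prod' fun η hη => ?_
  obtain ⟨i, -, rfl⟩ := hprim.eq_pow_of_pow_eq_one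
    ((Polynomial.mem_nthRootsFinset (Nat.pos_of_ne_zero hn0) 1).1 hη)
  exact not_lt.1 (hno i)

theorem hasLabel_unique (hnW : W.valuation (n : E) = 1) (hζ : IsPrimitiveRoot ζ n) {l l' : ℕ}
    (h1 : HasLabel ζ h g W l) (h2 : HasLabel ζ h g W l') : cst (E := E) ζ ^ l = cst ζ ^ l' := by
  have hn0 : n ≠ 0 := fun h0 => by rw [h0] at hnW; simp at hnW
  have hu : W.valuation (cst (E := E) ζ ^ l') = 1 :=
    (pow_eq_one_iff.1 (by rw [← map_pow, cst_zeta_pow hζ, map_one])).resolve_right hn0
  have hne : cst (E := E) ζ ^ l' ≠ 0 := fun h0 => by rw [h0, map_zero] at hu; exact zero_ne_one hu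
  rw [← div_eq_one_iff_eq hne]
  refine eq_one_of_small (by rw [div_pow, cst_zeta_pow hζ, cst_zeta_pow hζ, div_one]) hnW ?_
  rw [div_sub_one hne, map_div₀, hu, div_one,
    show cst (E := E) ζ ^ l - cst ζ ^ l' = (h / g W - cst ζ ^ l') - (h / g W - cst ζ ^ l) by ring]
  exact lt_of_le_of_lt (W.valuation.map_sub _ _) (max_lt h2 h1)

end label

/-! ### The chart ring of the subfield -/

section point

variable {F : Subfield E} {z : RatFunc K}

/-- The chart ring of a subfield. -/
def chartR (A : ValuationSubring K) (L : Subfield K) (F : Subfield E) (z : RatFunc K) : Subring E :=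
  F.toSubring ⊓
    { carrier := {b | (baseHom A L z).IsIntegralElem b}
      mul_mem' := fun {a b} ha hb => RingHom.IsIntegralElem.mul _ ha hb
      one_mem' := by
        show (baseHom A L z).IsIntegralElem (1 : E)
        rw [← map_one (baseHom (E := E) A L z)]; exact RingHom.isIntegralElem_map _
      add_mem' := fun {a b} ha hb => RingHom.IsIntegralElem.add _ ha hb
      zero_mem' := by
        show (baseHom A L z).IsIntegralElem (0 : E)
        rw [← map_zero (baseHom (E := E) A L z)]; exact RingHom.isIntegralElem_map _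
      neg_mem' := fun {a} ha => RingHom.IsIntegralElem.neg _ ha }

theorem mem_chartR {b : E} : b ∈ chartR A L F z ↔ b ∈ chartSet A L F z := Iff.rfl

theorem baseHom_mem (hL : ∀ a ∈ L, cst a ∈ F) (hz : algebraMap (RatFunc K) E z ∈ F)
    (P : (baseO A L)[X]) : baseHom A L z P ∈ F := by
  induction P using Polynomial.induction_on' with
  | add p q hp hq => rw [map_add]; exact add_mem hp hq
  | monomial i a =>
    rw [baseHom, coe_eval₂RingHom, eval₂_monomial]
    exact mul_mem (hL _ a.2.2) (pow_mem hz i)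

theorem isPoint_of_maximal (hC : ConstHyp A L ϖ) (hL : ∀ a ∈ L, cst a ∈ F)
    (hz : algebraMap (RatFunc K) E z ∈ F) {M : Ideal (chartB (E := E) A z)} [M.IsMaximal]
    (hϖ : (⟨cst (ϖ : K), intC_cst (baseInclHom A L ϖ)⟩ : chartB (E := E) A z) ∈ M) :
    IsPoint A L ϖ F z (Subtype.val '' {b : chartB (E := E) A z | b ∈ M ∧
      (b : E) ∈ chartSet A L F z}) := by
  set m : Set E := Subtype.val '' {b : chartB (E := E) A z | b ∈ M ∧ (b : E) ∈ chartSet A L F z}
  set R := chartR A L F z
  letI : Algebra (baseO A L)[X] R :=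
    ((baseHom (E := E) A L z).codRestrict R fun P =>
      Subring.mem_inf.2 ⟨baseHom_mem hL hz P, RingHom.isIntegralElem_map _⟩).toAlgebra
  haveI : Algebra.IsIntegral (baseO A L)[X] R := ⟨fun b => by
    obtain ⟨P, hP, he⟩ := b.2.2
    refine ⟨P, hP, Subtype.ext ?_⟩
    rw [ZeroMemClass.coe_zero, ← he, ← Subring.coe_subtype, hom_eval₂]
    rfl⟩
  let incl : R →+* chartB (E := E) A z := Subring.inclusion fun b hb => intC_of_mem_chartSet hb
  have hmem : ∀ b : R, incl b ∈ M ↔ (b : E) ∈ m := fun b => by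
    refine ⟨fun h => ⟨incl b, ⟨h, b.2⟩, rfl⟩, ?_⟩
    rintro ⟨c, ⟨hc, -⟩, hcb⟩
    rwa [show incl b = c from Subtype.ext hcb.symm]
  set M₁ := M.comap (algebraMap A[X] (chartB (E := E) A z))
  haveI : M₁.IsMaximal := Ideal.isMaximal_comap_of_isIntegral_of_isMaximal M
  have hfib : fibreIdeal A ≤ M₁ := Ideal.map_le_iff_le_comap.2 fun a ha => by
    obtain ⟨k, c, hk⟩ := hC.exists_dvd_pow ha
    refine (Ideal.comap_isPrime (algebraMap A[X] (chartB (E := E) A z)) M).mem_of_pow_mem k ?_
    rw [← map_pow, hk, map_mul]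
    refine Ideal.mul_mem_right _ _ ?_
    rw [Ideal.mem_comap]
    rwa [show algebraMap A[X] (chartB (E := E) A z) (C (baseInclHom A L ϖ)) =
      ⟨cst (ϖ : K), intC_cst (baseInclHom A L ϖ)⟩ from Subtype.ext (chartHom_C _)]
  letI := Ideal.Quotient.field M₁
  have hsurj : Function.Surjective
      ((Ideal.Quotient.mk M₁).comp (Polynomial.mapRingHom (baseInclHom A L))) := fun y => by
    obtain ⟨P, rfl⟩ := Ideal.Quotient.mk_surjective y
    choose b hb using fun i => hC.residue (P.coeff i : K) (P.coeff i).2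
    refine ⟨∑ i ∈ Finset.range (P.natDegree + 1), C (b i) * X ^ i, ?_⟩
    rw [RingHom.comp_apply, Ideal.Quotient.eq]
    refine hfib (mem_fibreIdeal.2 fun i => (A.valuation_lt_one_iff _).2 ?_)
    rw [coe_mapRingHom, coeff_sub, coeff_map]
    by_cases hi : i ∈ Finset.range (P.natDegree + 1)
    · simp only [finsetSum_coeff, coeff_C_mul_X_pow, Finset.sum_ite_eq, hi, if_true]
      rw [← Valuation.map_neg]
      push_cast
      rw [neg_sub]
      exact hb i
    · simp only [finsetSum_coeff, coeff_C_mul_X_pow, Finset.sum_ite_eq, hi, if_false, map_zero]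
      rw [coeff_eq_zero_of_natDegree_lt (by simpa using hi)]
      simp
  have hmax : (M.comap incl).IsMaximal := by
    refine Ideal.isMaximal_of_isIntegral_of_isMaximal_comap (R := (baseO A L)[X]) _ ?_
    rw [show (M.comap incl).comap (algebraMap (baseO A L)[X] R) =
      RingHom.ker ((Ideal.Quotient.mk M₁).comp (Polynomial.mapRingHom (baseInclHom A L))) from
      Ideal.ext fun P => ?_]
    · exact RingHom.ker_isMaximal_of_surjective _ hsurj
    rw [RingHom.mem_ker, RingHom.comp_apply, Ideal.Quotient.eq_zero_iff_mem, Ideal.mem_comap,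
      Ideal.mem_comap, Ideal.mem_comap]
    rw [show incl (algebraMap (baseO A L)[X] R P) = algebraMap A[X] (chartB (E := E) A z)
      (mapRingHom (baseInclHom A L) P) from Subtype.ext (by
        show baseHom A L z P = _
        rw [baseHom_eq_chartHom]; rfl)]
  refine ⟨?_, ?_, ?_, ?_, ?_, ?_, ?_⟩
  · rintro _ ⟨b, ⟨-, hb⟩, rfl⟩
    exact hb
  · exact (hmem 0).1 (by rw [map_zero]; exact M.zero_mem)
  · rintro _ ⟨a, ⟨ha, haS⟩, rfl⟩ _ ⟨b, ⟨hb, hbS⟩, rfl⟩
    exact ⟨a + b, ⟨M.add_mem ha hb, R.add_mem haS hbS⟩, rfl⟩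
  · rintro a ha _ ⟨b, ⟨hb, hbS⟩, rfl⟩
    exact ⟨⟨a, intC_of_mem_chartSet ha⟩ * b,
      ⟨M.mul_mem_left _ hb, R.mul_mem (show a ∈ R from ha) hbS⟩, rfl⟩
  · rintro ⟨b, ⟨hb, -⟩, hb1⟩
    exact (Ideal.ne_top_iff_one M).1 (Ideal.IsMaximal.ne_top inferInstance)
      ((show b = 1 from Subtype.ext hb1) ▸ hb)
  · refine ⟨_, ⟨hϖ, hL _ ϖ.2.2, ?_⟩, rfl⟩
    show (baseHom A L z).IsIntegralElem (cst (ϖ : K))
    rw [show cst (E := E) (ϖ : K) = baseHom A L z (C ϖ) by simp [baseHom]]
    exact RingHom.isIntegralElem_map _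
  · intro a ha hnm
    obtain ⟨y, i, hi, hyi⟩ := hmax.exists_inv (x := (⟨a, ha⟩ : R)) fun h => hnm ((hmem _).1 h)
    refine ⟨y, y.2, ?_⟩
    have : (⟨a, ha⟩ : R) * y - 1 = -i := by linear_combination hyi
    have h2 := (hmem ((⟨a, ha⟩ : R) * y - 1)).1 (by
      rw [this, map_neg]; exact M.neg_mem hi)
    exact h2

end point

/-- At a point of a chart all branches have the same label. -/
theorem label_eq_of_le (hC : ConstHyp A L ϖ) {n : ℕ} (hn : A.valuation (n : K) = 1) {ζ : K}
    (hζL : ζ ∈ L) (hζ : IsPrimitiveRoot ζ n) {F : Subfield E} {h f : E}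
    {g : ValuationSubring E → E} (hh : h ^ n = f) {z : RatFunc K} (hz : IsCoord K z)
    (hagree : RootsAgree A L ϖ F n f g z) (hL : ∀ a ∈ L, cst a ∈ F)
    (hzF : algebraMap (RatFunc K) E z ∈ F)
    (hg0 : ∀ W, IsVertical A L ϖ W → g W ≠ 0)
    {M : Ideal (chartB (E := E) A z)} [M.IsMaximal]
    {W W' : ValuationSubring E} (hW : IsVertical A L ϖ W) (hW' : IsVertical A L ϖ W')
    (hWM : vertCentre hW hC hz ≤ M) (hW'M : vertCentre hW' hC hz ≤ M) {l l' : ℕ}
    (hl : HasLabel ζ h g W l) (hl' : HasLabel ζ h g W' l') :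
    cst (E := E) ζ ^ l = cst ζ ^ l' := by
  have hn0 := n_ne_zero_of_unit hn
  have hζA : ζ ∈ A := by
    rw [← A.valuation_le_one_iff]
    exact ((pow_eq_one_iff.1 (by rw [← map_pow, hζ.pow_eq_one, map_one])).resolve_right hn0).le
  have hϖ : (⟨cst (ϖ : K), intC_cst (baseInclHom A L ϖ)⟩ : chartB (E := E) A z) ∈ M :=
    hWM ((mem_vertCentre hW hC hz).2 hW.1)
  obtain ⟨π, -, a, haS, hπ0, ham, ⟨b₀, hb₀S, c₀, hc₀S, -, hc₀m, hfac⟩, hbr⟩ :=
    hagree _ (isPoint_of_maximal hC hL hzF hϖ)
  have notMem : ∀ {s : E} (hs : s ∈ chartSet A L F z), s ∉ Subtype.val '' {b : chartB (E := E) A z |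
      b ∈ M ∧ (b : E) ∈ chartSet A L F z} → (⟨s, intC_of_mem_chartSet hs⟩ : chartB (E := E) A z) ∉ M :=
    fun hs h1 h2 => h1 ⟨_, ⟨h2, hs⟩, rfl⟩
  set θ : E := h / π * c₀
  have hθ : IntC A z θ := by
    have hp : θ ^ n = b₀ * c₀ ^ (n - 1) := by
      obtain ⟨k, rfl⟩ : ∃ k, n = k + 1 := ⟨n - 1, (Nat.sub_add_cancel (Nat.pos_of_ne_zero hn0)).symm⟩
      rw [Nat.add_sub_cancel, mul_pow, div_pow, hh, pow_succ c₀]
      field_simp
      linear_combination c₀ ^ k * hfac
    have h2 : IntC A z (θ ^ n) := hp ▸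
      (intC_of_mem_chartSet hb₀S).mul ((intC_of_mem_chartSet hc₀S).pow _)
    letI : Algebra A[X] E := (chartHom A z).toAlgebra
    exact IsIntegral.of_pow (Nat.pos_of_ne_zero hn0) h2
  set zb : ℕ → chartB (E := E) A z := fun l => ⟨cst ζ ^ l, (intC_cst ⟨ζ, hζA⟩).pow l⟩
  set θb : chartB (E := E) A z := ⟨θ, hθ⟩
  set ab : chartB (E := E) A z := ⟨a, intC_of_mem_chartSet haS⟩
  set c₀b : chartB (E := E) A z := ⟨c₀, intC_of_mem_chartSet hc₀S⟩
  have key : ∀ {V : ValuationSubring E} (hV : IsVertical A L ϖ V), vertCentre hV hC hz ≤ M →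
      ∀ j, HasLabel ζ h g V j → θb - zb j * ab * c₀b ∈ M := by
    intro V hV hVM j hj
    obtain ⟨b, hbS, c, hcS, hcm, hbac, hgb⟩ := hbr V hV fun s hs hlt =>
      ⟨⟨s, intC_of_mem_chartSet hs⟩, ⟨hVM ((mem_vertCentre hV hC hz).2 hlt), hs⟩, rfl⟩
    set bb : chartB (E := E) A z := ⟨b, intC_of_mem_chartSet hbS⟩
    set cb : chartB (E := E) A z := ⟨c, intC_of_mem_chartSet hcS⟩
    have h1 : θb * cb - zb j * bb * c₀b ∈ M := by
      refine hVM ((mem_vertCentre hV hC hz).2 ?_)
      show V.valuation (h / π * c₀ * c - cst ζ ^ j * b * c₀) < 1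
      have hgV := hg0 V hV
      rw [show h / π * c₀ * c - cst ζ ^ j * b * c₀ =
        c₀ * ((h / g V - cst ζ ^ j) * (g V / π * c) + cst ζ ^ j * (g V / π * c - b)) by
          field_simp; ring]
      have hv1 : V.valuation c₀ ≤ 1 :=
        (V.valuation_le_one_iff _).2 (hV.mem_of_intC hC hz (intC_of_mem_chartSet hc₀S))
      have hv2 : V.valuation (g V / π * c) ≤ 1 := by
        rw [← sub_add_cancel (g V / π * c) b]
        exact V.valuation.map_add_le hgb.le
          ((V.valuation_le_one_iff _).2 (hV.mem_of_intC hC hz bb.2))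
      have hv3 : V.valuation (cst ζ ^ j) ≤ 1 :=
        (V.valuation_le_one_iff _).2 (hV.mem_of_intC hC hz (zb j).2)
      rw [map_mul]
      refine lt_of_le_of_lt (mul_le_of_le_one_left' hv1) (V.valuation.map_add_lt ?_ ?_)
      · rw [map_mul]; exact lt_of_le_of_lt (mul_le_of_le_one_right' hv2) hj
      · rw [map_mul]; exact lt_of_le_of_lt (mul_le_of_le_one_left' hv3) hgb
    have h2 : bb - ab * cb ∈ M := by
      obtain ⟨w, ⟨hwM, -⟩, hw⟩ := hbac
      rwa [show bb - ab * cb = w from Subtype.ext hw.symm]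
    have h3 : cb * (θb - zb j * ab * c₀b) ∈ M := by
      rw [show cb * (θb - zb j * ab * c₀b) =
        (θb * cb - zb j * bb * c₀b) + zb j * c₀b * (bb - ab * cb) by ring]
      exact M.add_mem h1 (M.mul_mem_left _ h2)
    exact ((Ideal.IsMaximal.isPrime inferInstance).mem_or_mem h3).resolve_left
      (notMem hcS hcm)
  by_contra hne
  have hd : (zb l' - zb l) * (ab * c₀b) ∈ M := by
    rw [show (zb l' - zb l) * (ab * c₀b) =
      (θb - zb l * ab * c₀b) - (θb - zb l' * ab * c₀b) by ring]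
    exact M.sub_mem (key hW hWM l hl) (key hW' hW'M l' hl')
  have hu : A.valuation (ζ ^ l' - ζ ^ l) = 1 := by
    refine le_antisymm ((A.valuation_le_one_iff _).2 (sub_mem (pow_mem hζA _) (pow_mem hζA _)))
      (not_lt.1 fun hlt => hne ?_)
    have h1 := (hW.cst_lt_one hC).2 hlt
    rw [map_sub, map_pow, map_pow] at h1
    have h2 : HasLabel ζ h g W l' := by
      have h3 := W.valuation.map_add_lt hl (show W.valuation (cst ζ ^ l - cst ζ ^ l') < 1 by
        rw [← Valuation.map_neg, neg_sub]; exact h1)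
      rwa [sub_add_sub_cancel] at h3
    exact hasLabel_unique (hW.natCast_eq_one hC hn) hζ hl h2
  have hne0 : ζ ^ l' - ζ ^ l ≠ 0 := fun h0 => by rw [h0, map_zero] at hu; exact zero_ne_one hu
  rcases (Ideal.IsMaximal.isPrime (I := M) inferInstance).mem_or_mem hd with h1 | h1
  · have hinv : (ζ ^ l' - ζ ^ l)⁻¹ ∈ A :=
      (A.valuation_le_one_iff _).1 (by rw [map_inv₀, hu, inv_one])
    refine (Ideal.ne_top_iff_one M).1 (Ideal.IsMaximal.ne_top inferInstance) ?_
    convert M.mul_mem_left ⟨cst (ζ ^ l' - ζ ^ l)⁻¹, intC_cst ⟨_, hinv⟩⟩ h1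
    refine Subtype.ext ?_
    show (1 : E) = cst (ζ ^ l' - ζ ^ l)⁻¹ * (cst ζ ^ l' - cst ζ ^ l)
    rw [← map_pow, ← map_pow, ← map_sub, ← map_mul, inv_mul_cancel₀ hne0, map_one]
  · rcases (Ideal.IsMaximal.isPrime (I := M) inferInstance).mem_or_mem h1 with h2 | h2
    · exact notMem haS ham h2
    · exact notMem hc₀S hc₀m h2

open scoped Classical in
/-- The indicator of a set of branches. -/
def branchInd (p : ValuationSubring E → Prop) (W : ValuationSubring E) : E := if p W then 1 else 0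

/-- A set of branches which is constant at every point of a chart is cut out by an element. -/
theorem exists_indicator [FiniteDimensional (RatFunc K) E] (hC : ConstHyp A L ϖ) {z : RatFunc K}
    (hz : IsCoord K z) (p : ValuationSubring E → Prop)
    (hp : ∀ (M : Ideal (chartB (E := E) A z)), M.IsMaximal → ∀ (W W' : ValuationSubring E)
      (hW : IsVertical A L ϖ W) (hW' : IsVertical A L ϖ W'), vertCentre hW hC hz ≤ M →
      vertCentre hW' hC hz ≤ M → (p W ↔ p W')) :
    ∃ e : E, IntC A z e ∧ ∀ W, IsVertical A L ϖ W → W.valuation (e - branchInd p W) < 1 := by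
  classical
  set B := chartB (E := E) A z
  have hind : ∀ W, IsVertical A L ϖ W → W.valuation (branchInd p W) ≤ 1 := fun W _ => by
    rw [branchInd]; split_ifs <;> simp
  let J : Ideal B :=
    { carrier := {c | ∃ e : B, ∀ W, IsVertical A L ϖ W →
        W.valuation ((e : E) - branchInd p W * (c : E)) < 1}
      add_mem' := by
        rintro c c' ⟨e, he⟩ ⟨e', he'⟩
        refine ⟨e + e', fun W hW => ?_⟩
        have h := W.valuation.map_add_lt (he W hW) (he' W hW)
        push_cast
        convert h using 2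
        ring
      zero_mem' := ⟨0, fun W _ => by simp⟩
      smul_mem' := by
        rintro r c ⟨e, he⟩
        refine ⟨r * e, fun W hW => ?_⟩
        rw [smul_eq_mul, Subring.coe_mul, Subring.coe_mul, mul_left_comm (branchInd p W), ← mul_sub,
          map_mul]
        exact lt_of_le_of_lt
          (mul_le_of_le_one_left' ((W.valuation_le_one_iff _).2 (hW.mem_of_intC hC hz r.2)))
          (he W hW) }
  suffices h1 : (1 : B) ∈ J by
    obtain ⟨e, he⟩ := h1
    exact ⟨e, e.2, fun W hW => by simpa using he W hW⟩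
  rw [← Ideal.eq_top_iff_one]
  by_contra hne
  obtain ⟨M, hM, hle⟩ := J.exists_le_maximal hne
  haveI := hM
  by_cases hϖ : (⟨cst (ϖ : K), intC_cst (baseInclHom A L ϖ)⟩ : B) ∈ M
  swap
  · refine hϖ (hle ⟨0, fun W hW => ?_⟩)
    rw [ZeroMemClass.coe_zero, zero_sub, Valuation.map_neg, map_mul]
    exact lt_of_le_of_lt (mul_le_of_le_one_left' (hind W hW)) hW.1
  have hfin := finite_fibrePrimes (A := A) (E := E) hz
  set T := hfin.toFinset.filter fun P => ¬ P ≤ M
  have hT : ∀ P ∈ T, ∃ b ∈ P, b ∉ M := fun P hP => by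
    by_contra hc
    push Not at hc
    exact (Finset.mem_filter.1 hP).2 hc
  choose b hbP hbM using hT
  set s : B := ∏ P ∈ T.attach, b P.1 P.2
  have hsM : s ∉ M := fun hs => by
    haveI := Ideal.IsMaximal.isPrime hM
    obtain ⟨P, -, hP⟩ := Ideal.IsPrime.prod_mem_iff.1 hs
    exact hbM _ _ hP
  refine hsM (hle ?_)
  have hout : ∀ W (hW : IsVertical A L ϖ W), ¬ vertCentre hW hC hz ≤ M →
      W.valuation (s : E) < 1 := fun W hW hno => by
    have hP : vertCentre hW hC hz ∈ T :=
      Finset.mem_filter.2 ⟨hfin.mem_toFinset.2 (vertCentre_mem hW hC hz), hno⟩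
    exact (mem_vertCentre hW hC hz).1 (Ideal.mem_of_dvd _
      (Finset.dvd_prod_of_mem (fun P => b P.1 P.2) (Finset.mem_attach _ ⟨_, hP⟩)) (hbP _ hP))
  by_cases hex : ∃ W, ∃ hW : IsVertical A L ϖ W, vertCentre hW hC hz ≤ M ∧ p W
  · obtain ⟨W₁, hW₁, hW₁M, hpW₁⟩ := hex
    refine ⟨s, fun W hW => ?_⟩
    rw [← one_sub_mul, map_mul]
    by_cases hin : vertCentre hW hC hz ≤ M
    · rw [branchInd, if_pos ((hp M hM W₁ W hW₁ hW hW₁M hin).1 hpW₁), sub_self, map_zero, zero_mul]
      exact zero_lt_one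
    · refine lt_of_le_of_lt (mul_le_of_le_one_left' ?_) (hout W hW hin)
      exact (W.valuation.map_sub _ _).trans (max_le (map_one _).le (hind W hW))
  · refine ⟨0, fun W hW => ?_⟩
    rw [ZeroMemClass.coe_zero, zero_sub, Valuation.map_neg, map_mul]
    by_cases hin : vertCentre hW hC hz ≤ M
    · rw [branchInd, if_neg fun hpW => hex ⟨W, hW, hin, hpW⟩, map_zero, zero_mul]
      exact zero_lt_one
    · exact lt_of_le_of_lt (mul_le_of_le_one_left' (hind W hW)) (hout W hW hin)

end FA.Carayol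

end
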