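import Fermat.Agent.Carayol.Defs

/-!
# Vertical valuations and the special fibre of a chart

The primes of a chart over the generic point of the special fibre are finitely many, each is the
centre of a vertical valuation, and an element small at every vertical valuation is nilpotent
modulo the uniformiser.
-/

set_option autoImplicit false
set_option linter.style.haveILetI false
set_option linter.unusedSectionVars false

noncomputable section

namespace FA.Carayol

open Polynomial

variable {K E : Type} [Field K] [Field E] [Algebra (RatFunc K) E]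
  {A : ValuationSubring K} {L : Subfield K} {ϖ : baseO A L}

/-- An element of the base as an element of `A`. -/
def baseIncl (a : baseO A L) : A := ⟨(a : K), a.2.1⟩

/-- The inclusion of the base in `A`. -/
def baseInclHom (A : ValuationSubring K) (L : Subfield K) : baseO A L →+* A :=
  Subring.inclusion inf_le_left

theorem baseHom_eq_chartHom (z : RatFunc K) :
    baseHom (E := E) A L z = (chartHom A z).comp (Polynomial.mapRingHom (baseInclHom A L)) := by
  refine Polynomial.ringHom_ext (fun a => ?_) ?_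
  · simp only [baseHom, coe_eval₂RingHom, eval₂_C, RingHom.comp_apply, coe_mapRingHom, map_C,
      chartHom_C]
    rfl
  · simp only [baseHom, coe_eval₂RingHom, eval₂_X, RingHom.comp_apply, coe_mapRingHom, map_X,
      chartHom_X]

theorem intC_of_mem_chartSet {F : Subfield E} {z : RatFunc K} {b : E}
    (hb : b ∈ chartSet A L F z) : IntC A z b := by
  obtain ⟨P, hP, he⟩ := hb.2
  refine ⟨P.map (mapRingHom (baseInclHom A L)), hP.map _, ?_⟩
  rw [eval₂_map, ← baseHom_eq_chartHom]
  exact he

theorem cst_injective : Function.Injective (cst (K := K) (E := E)) := RingHom.injective _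

/-- The uniformiser is not a unit of `A`. -/
theorem ConstHyp.pi_ne_zero (hC : ConstHyp A L ϖ) : (ϖ : K) ≠ 0 := fun h =>
  hC.irreducible.ne_zero (Subtype.ext h)

theorem valuation_baseUnit {u : baseO A L} (hu : IsUnit u) : A.valuation (u : K) = 1 :=
  (A.valuation_eq_one_iff (baseInclHom A L u)).1 (hu.map (baseInclHom A L))

theorem ConstHyp.pi_small (hC : ConstHyp A L ϖ) : A.valuation (ϖ : K) < 1 := by
  refine (A.valuation_lt_one_iff (baseInclHom A L ϖ)).1 ((IsLocalRing.mem_maximalIdeal _).2 ?_)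
  intro hu
  refine hC.irreducible.not_isUnit ?_
  have hinv : (ϖ : K)⁻¹ ∈ baseO A L := by
    refine ⟨?_, L.inv_mem ϖ.2.2⟩
    obtain ⟨v, hv⟩ := hu.exists_right_inv
    have h : (ϖ : K) * (v : K) = 1 := congrArg Subtype.val hv
    rw [show (ϖ : K)⁻¹ = (v : K) from inv_eq_of_mul_eq_one_right h]
    exact v.2
  exact isUnit_iff_exists_inv.2 ⟨⟨_, hinv⟩, Subtype.ext (mul_inv_cancel₀ hC.pi_ne_zero)⟩

/-- Small constants are nilpotent modulo the uniformiser. -/
theorem ConstHyp.exists_dvd_pow (hC : ConstHyp A L ϖ) {a : A}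
    (ha : a ∈ IsLocalRing.maximalIdeal A) : ∃ k, baseInclHom A L ϖ ∣ a ^ k := by
  have h : a ∈ (Ideal.span {baseInclHom A L ϖ}).radical := by
    rw [Ideal.radical_eq_sInf, Ideal.mem_sInf]
    rintro P ⟨hP, hprime⟩
    haveI := hprime
    have hϖP : baseInclHom A L ϖ ∈ P := hP (Ideal.subset_span rfl)
    have h1 : A.ofPrime P = A := by
      refine hC.unique _ (fun b => A.le_ofPrime P b.2.1) ?_
      have h2 : A.idealOfLE _ (A.le_ofPrime P) = P := A.idealOfLE_ofPrime P
      rw [← h2] at hϖP
      exact (ValuationSubring.valuation_lt_one_iff _ _).1 hϖP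
    have h3 : P = A.idealOfLE _ (A.le_ofPrime P) := (A.idealOfLE_ofPrime P).symm
    rw [h3]
    show A.inclusion _ (A.le_ofPrime P) a ∈ IsLocalRing.maximalIdeal (A.ofPrime P)
    rw [ValuationSubring.valuation_lt_one_iff]
    show (A.ofPrime P).valuation (a : K) < 1
    rw [h1]
    exact (A.valuation_lt_one_iff a).1 ha
  obtain ⟨k, hk⟩ := h
  exact ⟨k, Ideal.mem_span_singleton.1 hk⟩

theorem cst_natCast_mem (n : ℕ) : (cst (K := K) (E := E) (n : K)) = (n : E) := map_natCast _ n

/-! ### A vertical valuation on the charts -/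

section vert

variable {W : ValuationSubring E}

theorem IsVertical.cst_mem_base (hW : IsVertical A L ϖ W) (hC : ConstHyp A L ϖ) (a : baseO A L) :
    cst (a : K) ∈ W := by
  rcases eq_or_ne a 0 with rfl | ha
  · simp
  haveI := hC.dvr
  obtain ⟨k, u, rfl⟩ :=
    IsDiscreteValuationRing.eq_unit_mul_pow_irreducible ha hC.irreducible
  have h := hW.2 (C (u : baseO A L)) ⟨0, by rw [coeff_C_zero]; exact u.isUnit⟩
  rw [baseHom, coe_eval₂RingHom, eval₂_C, RingHom.comp_apply] at h
  have hu : cst ((u : baseO A L) : K) ∈ W := (W.valuation_le_one_iff _).1 h.le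
  have hp : cst (E := E) (ϖ : K) ∈ W := (W.valuation_le_one_iff _).1 hW.1.le
  rw [Subring.coe_mul, Subring.coe_pow, map_mul, map_pow]
  exact mul_mem hu (pow_mem hp k)

theorem IsVertical.comap_eq (hW : IsVertical A L ϖ W) (hC : ConstHyp A L ϖ) :
    W.comap (cst (K := K) (E := E)) = A := by
  refine hC.unique _ (fun a => hW.cst_mem_base hC a) ?_
  rw [← ValuationSubring.mem_nonunits_iff, ValuationSubring.mem_nonunits_iff_or]
  refine Or.inr fun h => ?_
  rw [ValuationSubring.mem_comap, map_inv₀] at h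
  have h1 := hW.1
  rw [← ValuationSubring.mem_nonunits_iff, ValuationSubring.mem_nonunits_iff_or] at h1
  exact h1.elim (fun h0 => hC.pi_ne_zero ((map_eq_zero_iff _ cst_injective).1 h0)) fun h' => h' h

theorem IsVertical.cst_mem (hW : IsVertical A L ϖ W) (hC : ConstHyp A L ϖ) {a : K} :
    cst a ∈ W ↔ a ∈ A := by
  conv_rhs => rw [← hW.comap_eq hC, ValuationSubring.mem_comap]

theorem IsVertical.cst_lt_one (hW : IsVertical A L ϖ W) (hC : ConstHyp A L ϖ) {a : K} :
    W.valuation (cst a) < 1 ↔ A.valuation a < 1 := by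
  rw [← ValuationSubring.mem_nonunits_iff, ValuationSubring.mem_nonunits_iff_or,
    ← ValuationSubring.mem_nonunits_iff, ValuationSubring.mem_nonunits_iff_or, ← map_inv₀,
    hW.cst_mem hC, map_eq_zero_iff _ cst_injective]

theorem IsVertical.cst_eq_one (hW : IsVertical A L ϖ W) (hC : ConstHyp A L ϖ) {a : K}
    (ha : A.valuation a = 1) : W.valuation (cst a) = 1 :=
  le_antisymm ((W.valuation_le_one_iff _).2 ((hW.cst_mem hC).2 ((A.valuation_le_one_iff _).1 ha.le)))
    (not_lt.1 fun h => (((hW.cst_lt_one hC).1 h).ne ha))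

/-- A polynomial with small coefficients is small where the coordinate is integral. -/
theorem valuation_chartHom_lt_one {z : RatFunc K}
    (hc : ∀ a : A, A.valuation (a : K) < 1 → W.valuation (cst (a : K)) < 1)
    (hz : W.valuation (algebraMap (RatFunc K) E z) ≤ 1) {P : A[X]}
    (hP : ∀ i, A.valuation (P.coeff i : K) < 1) : W.valuation (chartHom (E := E) A z P) < 1 := by
  rw [chartHom_ofNat_coeff z P (Nat.lt_succ_self P.natDegree)]
  refine Valuation.map_sum_lt _ one_ne_zero fun i _ => ?_
  rw [map_mul, map_pow]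
  exact lt_of_le_of_lt (mul_le_of_le_one_right' (pow_le_one₀ zero_le hz)) (hc _ (hP i))

theorem IsVertical.coord_eq_one (hW : IsVertical A L ϖ W) :
    W.valuation (algebraMap (RatFunc K) E RatFunc.X) = 1 := by
  have h := hW.2 X ⟨1, by rw [coeff_X_one]; exact isUnit_one⟩
  rwa [baseHom, coe_eval₂RingHom, eval₂_X] at h

theorem IsVertical.coord_eq_one' (hW : IsVertical A L ϖ W) {z : RatFunc K} (hz : IsCoord K z) :
    W.valuation (algebraMap (RatFunc K) E z) = 1 := by
  rcases hz with rfl | rfl
  · exact hW.coord_eq_one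
  · rw [map_inv₀, map_inv₀, hW.coord_eq_one, inv_one]

theorem IsVertical.chartHom_X_eq_one (hW : IsVertical A L ϖ W) (hC : ConstHyp A L ϖ) {P : A[X]}
    (hP : ∃ i, IsUnit (P.coeff i)) :
    W.valuation (chartHom (E := E) A RatFunc.X P) = 1 := by
  classical
  choose b hb using fun i => hC.residue (P.coeff i : K) (P.coeff i).2
  set P₀ : (baseO A L)[X] := ∑ i ∈ Finset.range (P.natDegree + 1), C (b i) * X ^ i
  have hco : ∀ i, i ∈ Finset.range (P.natDegree + 1) → P₀.coeff i = b i := fun i hi => by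
    simp [P₀, finsetSum_coeff, coeff_C_mul_X_pow, Finset.sum_ite_eq, Finset.mem_range.1 hi]
  have hsmall : ∀ i, A.valuation (((P - P₀.map (baseInclHom A L)).coeff i : A) : K) < 1 := fun i => by
    rw [coeff_sub, coeff_map]
    by_cases hi : i ∈ Finset.range (P.natDegree + 1)
    · rw [hco i hi]; exact hb i
    · rw [coeff_eq_zero_of_natDegree_lt (by simpa using hi)]
      simp [P₀, finsetSum_coeff, coeff_C_mul_X_pow, Finset.sum_ite_eq,
        show ¬ i < P.natDegree + 1 by simpa using hi]
  obtain ⟨i, hi⟩ := hP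
  have hir : i ∈ Finset.range (P.natDegree + 1) := by
    refine Finset.mem_range.2 (Nat.lt_succ_of_le (le_natDegree_of_ne_zero hi.ne_zero))
  have hu : IsUnit (P₀.coeff i) := by
    haveI := hC.dvr
    rw [hco i hir, ← IsLocalRing.notMem_maximalIdeal]
    intro hmem
    rw [hC.irreducible.maximalIdeal_eq, Ideal.mem_span_singleton] at hmem
    obtain ⟨c, hc⟩ := hmem
    have h1 : A.valuation ((b i : K)) < 1 := by
      rw [hc, Subring.coe_mul, map_mul]
      exact lt_of_le_of_lt (mul_le_of_le_one_right' ((A.valuation_le_one_iff _).2 c.2.1)) hC.pi_small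
    have h2 := (A.valuation_eq_one_iff (P.coeff i)).1 hi
    have h3 := A.valuation.map_add_lt (hb i) h1
    rw [sub_add_cancel, h2] at h3
    exact lt_irrefl _ h3
  have h0 := hW.2 P₀ ⟨i, hu⟩
  rw [baseHom_eq_chartHom, RingHom.comp_apply, coe_mapRingHom] at h0
  have h1 := valuation_chartHom_lt_one (z := RatFunc.X) (fun a ha => (hW.cst_lt_one hC).2 ha)
    hW.coord_eq_one.le hsmall
  rw [map_sub] at h1
  rw [← sub_add_cancel (chartHom (E := E) A RatFunc.X P)
    (chartHom A RatFunc.X (P₀.map (baseInclHom A L))),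
    W.valuation.map_add_eq_of_lt_right (h0.symm ▸ h1), h0]

theorem chartHom_inv_reflect (z : RatFunc K) (hz : z ≠ 0) (Q : A[X]) {m : ℕ}
    (hm : Q.natDegree ≤ m) :
    chartHom (E := E) A z⁻¹ (Q.reflect m) =
      algebraMap (RatFunc K) E z⁻¹ ^ m * chartHom (E := E) A z Q := by
  letI : Invertible z := invertibleOfNonzero hz
  have h := eval₂_reflect_mul_pow (RatFunc.C.comp A.subtype) z m Q hm
  rw [invOf_eq_inv] at h
  simp only [chartHom, RingHom.comp_apply, evC, coe_eval₂RingHom, ← map_pow, ← map_mul]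
  congr 1
  rw [← h, inv_pow, ← mul_assoc, mul_comm ((z ^ m)⁻¹), mul_assoc,
    inv_mul_cancel₀ (pow_ne_zero m hz), mul_one]

theorem exists_unit_coeff_reflect {P : A[X]} (hP : ∃ i, IsUnit (P.coeff i)) :
    ∃ i, IsUnit ((P.reflect P.natDegree).coeff i) := by
  obtain ⟨i, hi⟩ := hP
  refine ⟨P.natDegree - i, ?_⟩
  have hle : i ≤ P.natDegree := le_natDegree_of_ne_zero hi.ne_zero
  rwa [coeff_reflect, revAt_le (Nat.sub_le _ _), Nat.sub_sub_self hle]

theorem IsVertical.chartHom_eq_one (hW : IsVertical A L ϖ W) (hC : ConstHyp A L ϖ)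
    {z : RatFunc K} (hz : IsCoord K z) {P : A[X]} (hP : ∃ i, IsUnit (P.coeff i)) :
    W.valuation (chartHom (E := E) A z P) = 1 := by
  rcases hz with rfl | rfl
  · exact hW.chartHom_X_eq_one hC hP
  · have h := chartHom_inv_reflect (E := E) (RatFunc.X⁻¹ : RatFunc K)
      (inv_ne_zero RatFunc.X_ne_zero) P le_rfl
    rw [inv_inv] at h
    have h1 := hW.chartHom_X_eq_one hC (exists_unit_coeff_reflect hP)
    rw [h, map_mul, map_pow, hW.coord_eq_one, one_pow, one_mul] at h1
    exact h1

theorem IsVertical.chartHom_mem (hW : IsVertical A L ϖ W) (hC : ConstHyp A L ϖ)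
    {z : RatFunc K} (hz : IsCoord K z) (P : A[X]) : chartHom (E := E) A z P ∈ W := by
  rw [chartHom_ofNat_coeff z P (Nat.lt_succ_self P.natDegree)]
  exact sum_mem fun i _ => mul_mem ((hW.cst_mem hC).2 (P.coeff i).2)
    (pow_mem ((W.valuation_le_one_iff _).1 (hW.coord_eq_one' hz).le) i)

theorem IsVertical.mem_of_intC (hW : IsVertical A L ϖ W) (hC : ConstHyp A L ϖ)
    {z : RatFunc K} (hz : IsCoord K z) {b : E} (hb : IntC A z b) : b ∈ W := by
  obtain ⟨P, hP, he⟩ := hb
  set g : A[X] →+* W := (chartHom (E := E) A z).codRestrict W (hW.chartHom_mem hC hz)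
  have hint : IsIntegral W b := ⟨P.map g, hP.map _, by
    rw [eval₂_map]
    exact he⟩
  obtain ⟨y, hy⟩ := IsIntegrallyClosed.isIntegral_iff.1 hint
  exact hy ▸ y.2

end vert

/-! ### The chart ring -/

/-- The elements integral over a chart. -/
def chartB (A : ValuationSubring K) (z : RatFunc K) : Subring E where
  carrier := {b | IntC A z b}
  mul_mem' := IntC.mul
  one_mem' := intC_one
  add_mem' := IntC.add
  zero_mem' := intC_zero
  neg_mem' := IntC.neg

theorem mem_chartB {A : ValuationSubring K} {z : RatFunc K} {b : E} :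
    b ∈ chartB A z ↔ IntC A z b := Iff.rfl

variable (A) in
/-- The structure map of the chart ring. -/
def chartMap (z : RatFunc K) : A[X] →+* chartB (E := E) A z :=
  (chartHom A z).codRestrict _ intC_hom

instance chartAlgebra (z : RatFunc K) : Algebra A[X] (chartB (E := E) A z) :=
  (chartMap A z).toAlgebra

theorem coe_algebraMap_chartB (z : RatFunc K) (P : A[X]) :
    ((algebraMap A[X] (chartB (E := E) A z) P : chartB (E := E) A z) : E) = chartHom A z P := rfl

instance chartIntegral (z : RatFunc K) : Algebra.IsIntegral A[X] (chartB (E := E) A z) :=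
  ⟨fun b => by
    obtain ⟨P, hP, he⟩ := b.2
    refine ⟨P, hP, Subtype.ext ?_⟩
    rw [ZeroMemClass.coe_zero, ← he, ← Subring.coe_subtype, hom_eval₂]
    rfl⟩

/-- The generic point of the special fibre of the line. -/
def fibreIdeal (A : ValuationSubring K) : Ideal A[X] :=
  (IsLocalRing.maximalIdeal A).map C

instance : (fibreIdeal A).IsPrime := Ideal.isPrime_map_C_of_isPrime

theorem mem_fibreIdeal {P : A[X]} :
    P ∈ fibreIdeal A ↔ ∀ i, P.coeff i ∈ IsLocalRing.maximalIdeal A := Ideal.mem_map_C_iff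

theorem exists_unit_of_notMem_fibreIdeal {P : A[X]} (h : P ∉ fibreIdeal A) :
    ∃ i, IsUnit (P.coeff i) := by
  rw [mem_fibreIdeal, not_forall] at h
  exact h.imp fun i hi => IsLocalRing.notMem_maximalIdeal.1 hi

/-- The primes of a chart over the generic point of the special fibre. -/
def fibrePrimes (E : Type) [Field E] [Algebra (RatFunc K) E] (A : ValuationSubring K)
    (z : RatFunc K) : Set (Ideal (chartB (E := E) A z)) :=
  {P | P.IsPrime ∧ P.comap (algebraMap A[X] (chartB (E := E) A z)) = fibreIdeal A}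

theorem fibrePrimes_incomparable {z : RatFunc K} {P Q : Ideal (chartB (E := E) A z)}
    (hP : P ∈ fibrePrimes E A z) (hQ : Q ∈ fibrePrimes E A z) (h : P ≤ Q) : P = Q := by
  by_contra hne
  haveI := hP.1
  have := Ideal.IsIntegral.comap_lt_comap (R := A[X]) (lt_of_le_of_ne h hne)
  rw [hP.2, hQ.2] at this
  exact lt_irrefl _ this

/-- The centre of a vertical valuation. -/
def vertCentre {W : ValuationSubring E} (hW : IsVertical A L ϖ W) (hC : ConstHyp A L ϖ)
    {z : RatFunc K} (hz : IsCoord K z) : Ideal (chartB (E := E) A z) :=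
  (IsLocalRing.maximalIdeal W).comap
    (Subring.inclusion (fun _ hb => hW.mem_of_intC hC hz hb : chartB (E := E) A z ≤ W.toSubring))

theorem mem_vertCentre {W : ValuationSubring E} (hW : IsVertical A L ϖ W) (hC : ConstHyp A L ϖ)
    {z : RatFunc K} (hz : IsCoord K z) {b : chartB (E := E) A z} :
    b ∈ vertCentre hW hC hz ↔ W.valuation (b : E) < 1 :=
  (W.valuation_lt_one_iff _)

theorem vertCentre_mem {W : ValuationSubring E} (hW : IsVertical A L ϖ W) (hC : ConstHyp A L ϖ)
    {z : RatFunc K} (hz : IsCoord K z) : vertCentre hW hC hz ∈ fibrePrimes E A z := by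
  refine ⟨Ideal.comap_isPrime _ _, Ideal.ext fun P => ?_⟩
  rw [Ideal.mem_comap, mem_vertCentre, coe_algebraMap_chartB]
  constructor
  · intro h
    by_contra hP
    exact h.ne (hW.chartHom_eq_one hC hz (exists_unit_of_notMem_fibreIdeal hP))
  · intro h
    rw [mem_fibreIdeal] at h
    exact valuation_chartHom_lt_one (fun a ha => (hW.cst_lt_one hC).2 ha) (hW.coord_eq_one' hz).le
      fun i => (A.valuation_lt_one_iff _).1 (h i)

/-- Every prime over the generic point of the special fibre is a centre. -/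
theorem exists_vertical (hC : ConstHyp A L ϖ) {z : RatFunc K} (hz : IsCoord K z)
    {P : Ideal (chartB (E := E) A z)} (hP : P ∈ fibrePrimes E A z) :
    ∃ (W : ValuationSubring E) (hW : IsVertical A L ϖ W), vertCentre hW hC hz = P := by
  obtain ⟨hPp, hPc⟩ := hP
  haveI := hPp
  obtain ⟨W, hW⟩ := (LocalSubring.ofPrime (chartB (E := E) A z) P).exists_le_valuationSubring
  have hle : chartB (E := E) A z ≤ W.toSubring :=
    (LocalSubring.le_ofPrime ..).trans hW.1
  have hsmall : ∀ b : chartB (E := E) A z, b ∈ P → W.valuation (b : E) < 1 := fun b hb => by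
    obtain ⟨W', hW'⟩ := hW
    have h1 : (⟨(b : E), hle b.2⟩ : W) ∈ IsLocalRing.maximalIdeal W := by
      rw [IsLocalRing.mem_maximalIdeal]
      intro hu
      have h2 : IsUnit (⟨(b : E), (LocalSubring.le_ofPrime ..) b.2⟩ :
          (LocalSubring.ofPrime (chartB (E := E) A z) P).toSubring) := hW'.map_nonunit _ hu
      have h3 : algebraMap (chartB (E := E) A z)
          (LocalSubring.ofPrime (chartB (E := E) A z) P).toSubring b ∈ IsLocalRing.maximalIdeal _ :=
        (IsLocalization.AtPrime.to_map_mem_maximal_iff _ P b).2 hb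
      exact h3 h2
    exact (W.valuation_lt_one_iff _).1 h1
  have hmap : ∀ Q : A[X], Q ∈ fibreIdeal A → W.valuation (chartHom (E := E) A z Q) < 1 :=
    fun Q hQ => hsmall (algebraMap A[X] (chartB (E := E) A z) Q) (by
      rw [← Ideal.mem_comap, hPc]; exact hQ)
  have hunit : ∀ Q : A[X], (∃ i, IsUnit (Q.coeff i)) →
      W.valuation (chartHom (E := E) A z Q) = 1 := fun Q hQ => by
    have hnot : algebraMap A[X] (chartB (E := E) A z) Q ∉ P := by
      rw [← Ideal.mem_comap, hPc, mem_fibreIdeal]
      obtain ⟨i, hi⟩ := hQ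
      exact fun h => h i hi
    refine le_antisymm ((W.valuation_le_one_iff _).2 (hle (intC_hom Q))) (not_lt.1 fun hlt => ?_)
    obtain ⟨W', hW'⟩ := hW
    have h2 : IsUnit (⟨chartHom (E := E) A z Q, (LocalSubring.le_ofPrime ..) (intC_hom Q)⟩ :
        (LocalSubring.ofPrime (chartB (E := E) A z) P).toSubring) :=
      (IsLocalization.AtPrime.isUnit_to_map_iff _ P _).2 hnot
    have h3 := (W.valuation_eq_one_iff _).1 (h2.map (Subring.inclusion W'))
    exact hlt.ne h3
  have hpi : W.valuation (cst (ϖ : K)) < 1 := by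
    have := hmap (C (baseInclHom A L ϖ)) (Ideal.mem_map_of_mem _
      ((A.valuation_lt_one_iff _).2 hC.pi_small))
    rwa [chartHom_C] at this
  have hW2 : IsVertical A L ϖ W := by
    refine ⟨hpi, fun Q hQ => ?_⟩
    rw [baseHom_eq_chartHom, RingHom.comp_apply, coe_mapRingHom]
    set R := Q.map (baseInclHom A L)
    have hR : ∃ i, IsUnit (R.coeff i) := by
      obtain ⟨i, hi⟩ := hQ
      exact ⟨i, by rw [coeff_map]; exact hi.map _⟩
    rcases hz with rfl | rfl
    · exact hunit R hR
    · have hy : W.valuation (algebraMap (RatFunc K) E (RatFunc.X⁻¹ : RatFunc K)) = 1 := by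
        rw [← chartHom_X (A := A) (E := E)]
        exact hunit X ⟨1, by rw [coeff_X_one]; exact isUnit_one⟩
      have h := chartHom_inv_reflect (E := E) (RatFunc.X : RatFunc K) RatFunc.X_ne_zero R le_rfl
      have h1 := hunit _ (exists_unit_coeff_reflect hR)
      rwa [h, map_mul, map_pow, hy, one_pow, one_mul] at h1
  refine ⟨W, hW2, (fibrePrimes_incomparable ⟨hPp, hPc⟩ (vertCentre_mem hW2 hC hz) fun b hb =>
    (mem_vertCentre hW2 hC hz).2 (hsmall b hb)).symm⟩

/-- An element small at all vertical valuations is nilpotent modulo the uniformiser. -/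
theorem exists_pow_eq_pi_mul (hC : ConstHyp A L ϖ) {z : RatFunc K} (hz : IsCoord K z) {u : E}
    (hu : IntC A z u) (h : ∀ W : ValuationSubring E, IsVertical A L ϖ W → W.valuation u < 1) :
    ∃ (k : ℕ) (b : E), IntC A z b ∧ u ^ k = cst (ϖ : K) * b := by
  set B := chartB (E := E) A z
  haveI : FaithfulSMul A[X] B := (faithfulSMul_iff_algebraMap_injective _ _).2 fun P Q h =>
    hz.evC_injective ((algebraMap (RatFunc K) E).injective (congrArg Subtype.val h))
  have hmem : (⟨u, hu⟩ : B) ∈
      (Ideal.span {algebraMap A[X] B (C (baseInclHom A L ϖ))}).radical := by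
    rw [Ideal.radical_eq_sInf, Ideal.mem_sInf]
    rintro Q ⟨hQ, hQp⟩
    haveI := hQp
    have hϖQ : C (baseInclHom A L ϖ) ∈ Q.comap (algebraMap A[X] B) :=
      hQ (Ideal.subset_span rfl)
    have hle : fibreIdeal A ≤ Q.comap (algebraMap A[X] B) := Ideal.map_le_iff_le_comap.2 fun a ha => by
      obtain ⟨k, c, hk⟩ := hC.exists_dvd_pow ha
      refine (Ideal.comap_isPrime (algebraMap A[X] B) Q).mem_of_pow_mem k ?_
      rw [← map_pow, hk, map_mul]
      exact Ideal.mul_mem_right _ _ hϖQ
    haveI : Q.LiesOver (Q.comap (algebraMap A[X] B)) := ⟨rfl⟩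
    obtain ⟨P, hPQ, hPp, hPo⟩ := Ideal.exists_ideal_le_liesOver_of_le (R := A[X]) Q hle
    obtain ⟨W, hW, hWc⟩ := exists_vertical hC hz (P := P) ⟨hPp, hPo.over.symm⟩
    refine hPQ ?_
    rw [← hWc, mem_vertCentre]
    exact h W hW
  obtain ⟨k, hk⟩ := hmem
  obtain ⟨c, hc⟩ := Ideal.mem_span_singleton.1 hk
  refine ⟨k, (c : E), c.2, ?_⟩
  have h1 := congrArg Subtype.val hc
  rwa [Subring.coe_pow, Subring.coe_mul, coe_algebraMap_chartB, chartHom_C] at h1

/-- A prime of the chart over the fibre with a given set of indices has an element outside one and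
inside the others. -/
theorem exists_separating {z : RatFunc K} (s : Finset (Ideal (chartB (E := E) A z)))
    (hs : ∀ P ∈ s, P ∈ fibrePrimes E A z) {P : Ideal (chartB (E := E) A z)} (hP : P ∈ s) :
    ∃ b : chartB (E := E) A z, b ∉ P ∧ ∀ Q ∈ s, Q ≠ P → b ∈ Q := by
  classical
  have h : ∀ Q ∈ s.erase P, ∃ b ∈ Q, b ∉ P := fun Q hQ => by
    obtain ⟨hne, hQs⟩ := Finset.mem_erase.1 hQ
    by_contra hc
    push Not at hc
    exact hne (fibrePrimes_incomparable (hs Q hQs) (hs P hP) hc)
  choose b hbQ hbP using h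
  refine ⟨∏ Q ∈ (s.erase P).attach, b Q.1 Q.2, fun hmem => ?_, fun Q hQ hne => ?_⟩
  · haveI := (hs P hP).1
    obtain ⟨Q, -, hQ⟩ := (Ideal.IsPrime.prod_mem_iff).1 hmem
    exact hbP _ _ hQ
  · exact Ideal.mem_of_dvd _ (Finset.dvd_prod_of_mem (fun Q => b Q.1 Q.2)
      (Finset.mem_attach _ ⟨Q, Finset.mem_erase.2 ⟨hne, hQ⟩⟩)) (hbQ _ _)

theorem finite_fibrePrimes [FiniteDimensional (RatFunc K) E] {z : RatFunc K} (hz : IsCoord K z) :
    (fibrePrimes E A z).Finite := by
  classical
  set n := Module.finrank (RatFunc K) E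
  by_contra hinf
  obtain ⟨s, hs, hcard⟩ := (Set.Infinite.exists_subset_card_eq hinf (n + 1))
  choose b hbP hbQ using fun P : s => exists_separating s (fun Q hQ => hs hQ) P.2
  have hli : LinearIndependent (RatFunc K) fun P : s => ((b P : chartB (E := E) A z) : E) := by
    rw [Fintype.linearIndependent_iff]
    intro r hr
    choose u v hv huv using fun P : s => hz.exists_frac A (r P)
    set q : s → A[X] := fun P => u P * ∏ Q ∈ Finset.univ.erase P, v Q
    have hq : ∀ P, evC A z (q P) = r P * evC A z (∏ Q, v Q) := fun P => by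
      rw [map_mul, ← huv, mul_assoc, ← map_mul, Finset.mul_prod_erase _ v (Finset.mem_univ P)]
    have hv0 : evC A z (∏ Q, v Q) ≠ 0 := fun h =>
      Finset.prod_ne_zero_iff.2 (fun Q _ => hv Q) (hz.evC_injective (by rw [h, map_zero]))
    by_contra hne
    obtain ⟨P₁, hP₁⟩ := not_forall.1 hne
    have hq1 : q P₁ ≠ 0 := fun h => hP₁ (by
      have := hq P₁
      rw [h, map_zero] at this
      exact (mul_eq_zero.1 this.symm).resolve_right hv0)
    have hex : ∀ P : s, ∃ (c : A) (w : A[X]), q P = C c * w ∧ (c = 0 ∨ ∃ i, IsUnit (w.coeff i)) :=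
      fun P => by
      rcases eq_or_ne (q P) 0 with h | h
      · exact ⟨0, 0, by rw [h, mul_zero], Or.inl rfl⟩
      · obtain ⟨c, w, -, h1, h2⟩ := exists_primitive h
        exact ⟨c, w, h1, Or.inr h2⟩
    choose c w hcw hw using hex
    obtain ⟨P₂, -, hmax⟩ := Finset.univ.exists_max_image (fun P => A.valuation (c P : K))
      ⟨P₁, Finset.mem_univ _⟩
    have hc1 : c P₁ ≠ 0 := fun h => hq1 (by rw [hcw, h, map_zero, zero_mul])
    have hc2 : (c P₂ : K) ≠ 0 := fun h => by
      have h1 := hmax P₁ (Finset.mem_univ _)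
      rw [h, map_zero, le_zero_iff, Valuation.zero_iff] at h1
      exact hc1 (Subtype.ext h1)
    have hd : ∀ P, ∃ d : A, c P = c P₂ * d := fun P =>
      ⟨⟨(c P : K) / c P₂, by
        rw [← A.valuation_le_one_iff, map_div₀]
        exact div_le_one_of_le₀ (hmax P (Finset.mem_univ _)) zero_le⟩, Subtype.ext (by
        show (c P : K) = (c P₂ : K) * ((c P : K) / c P₂)
        rw [mul_div_cancel₀ _ hc2])⟩
    choose d hd using hd
    have hrel : (∑ P : s, algebraMap A[X] (chartB (E := E) A z) (C (d P) * w P) * b P) = 0 := by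
      have hne0 : cst (E := E) (c P₂ : K) ≠ 0 := (_root_.map_ne_zero _).2 hc2
      refine Subtype.ext (mul_left_cancel₀ hne0 ?_)
      rw [ZeroMemClass.coe_zero, mul_zero, AddSubmonoidClass.coe_finset_sum, Finset.mul_sum]
      have h0 := congrArg (algebraMap (RatFunc K) E (evC A z (∏ Q, v Q)) * ·) hr
      simp only [mul_zero, Finset.mul_sum] at h0
      refine Eq.trans (Finset.sum_congr rfl fun P _ => ?_) h0
      rw [Subring.coe_mul, coe_algebraMap_chartB, Algebra.smul_def, ← mul_assoc, ← mul_assoc,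
        ← map_mul, mul_comm (evC A z _), ← hq, ← chartHom_C (A := A) (z := z), ← map_mul,
        ← mul_assoc, ← map_mul C, ← hd, ← hcw]
      rfl
    have hd2 : d P₂ = 1 := by
      refine Subtype.ext (mul_left_cancel₀ hc2 ?_)
      show ((c P₂ * d P₂ : A) : K) = _
      rw [← hd, OneMemClass.coe_one, mul_one]
    haveI := (hs P₂.2).1
    have hmem : algebraMap A[X] (chartB (E := E) A z) (C (d P₂) * w P₂) * b P₂ ∈ P₂.1 := by
      rw [← Finset.add_sum_erase Finset.univ _ (Finset.mem_univ P₂)] at hrel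
      rw [eq_neg_of_add_eq_zero_left hrel]
      refine Ideal.neg_mem_iff _ |>.2 (Ideal.sum_mem _ fun P hP => Ideal.mul_mem_left _ _ ?_)
      exact hbQ P P₂.1 P₂.2 fun h => (Finset.mem_erase.1 hP).1 (Subtype.ext h.symm)
    rcases Ideal.IsPrime.mem_or_mem inferInstance hmem with h | h
    · rw [← Ideal.mem_comap, (hs P₂.2).2, hd2, map_one, one_mul, mem_fibreIdeal] at h
      obtain h0 | ⟨i, hi⟩ := hw P₂
      · exact hc2 (by rw [h0]; rfl)
      · exact (h i) hi
    · exact hbP P₂ h
  have := hli.fintype_card_le_finrank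
  rw [Fintype.card_coe, hcard] at this
  omega

end FA.Carayol

end
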